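import Fermat.Agent.Ribet.H784.NCFor
import Fermat.Agent.Ribet.H847.InLeaf

/-!
# RIBET, wall at `p`, S2 leaf NC (`H103.S2.NCFor`) — CLOSED, UNCONDITIONAL (helper784)

    NCFor  ⟸  IN (`H847.inLeaf`, helper847)  +  NC-abs (`H232.normContr`, helper232)
              +  OUT (`H784.outLeaf` = LEVEL-DP `H784.levelDeepPure` + GD `H216.gaussDescent`)

* `ncFor : … → NCFor p M' A`   for all odd primes `p ∤ M'` with `2 ∣ M'` if `p = 3`
  (the levels where MOD at `q = p` exists);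
* `nc5`  : the body of `H943.Final2.NC5Statement` (`p ≥ 5`), VERBATIM;
* `ncx`  : the combined leaf `S2.NCXStatement` from DICT (`S2.DictFor`).
-/

set_option autoImplicit false

noncomputable section

namespace Fermat.Agent.Ribet.H784

open ModularCurve
open Fermat.Agent.Ribet.H103.S2 Fermat.Agent.Ribet.H220

/-- **NC** (`H103.S2.NCFor`), unconditional at the ready levels. -/
theorem ncFor (p M' : ℕ) [NeZero M'] [NeZero p] [NeZero (p * M')] (hp : p.Prime) (hp2 : p ≠ 2)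
    (hpM : ¬ p ∣ M') (h3 : p = 3 → 2 ∣ M') (A : ValuationSubring (AlgebraicClosure ℚ))
    (hA : A.LiesOverPrime p) : NCFor p M' A :=
  ncFor_of_in Fermat.Agent.Ribet.H847.inLeaf p M' hp hp2 hpM h3 A hA

/-- **NC for `p ≥ 5`** (the body of `H943.Final2.NC5Statement`, VERBATIM). -/
theorem nc5 :
    ∀ (p M' : ℕ) [NeZero M'] [NeZero p] [NeZero (p * M')], p.Prime → 5 ≤ p → ¬ p ∣ M' →
      ∀ A : ValuationSubring (AlgebraicClosure ℚ), A.LiesOverPrime p → NCFor p M' A :=
  nc5_of_in Fermat.Agent.Ribet.H847.inLeaf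

/-- **NCX from DICT** (`S2.NCXStatement`; the only open input of (S2) is DICT). -/
theorem ncx (p M' : ℕ) [NeZero M'] [NeZero p] [NeZero (p * M')] (hp : p.Prime) (hp2 : p ≠ 2)
    (hpM : ¬ p ∣ M') (h3 : p = 3 → 2 ∣ M') (A : ValuationSubring (AlgebraicClosure ℚ))
    (hA : A.LiesOverPrime p) (𝒮 : AddSubgroup (JZero (p * M')))
    (hD : DictFor p M' A 𝒮) : NCXStatement p M' A 𝒮 :=
  ncx_of_in Fermat.Agent.Ribet.H847.inLeaf p M' hp hp2 hpM h3 A hA 𝒮 hD

end Fermat.Agent.Ribet.H784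

end
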