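import Fermat.Agent.Ribet.H784.NCLevel
import Fermat.Agent.Ribet.H232.NCFinal

/-!
# RIBET, wall at `p`, S2 leaf NC (`H103.S2.NCFor`) from the ONE open leaf IN (helper784)

`NCFor ⟸ InLeaf + NormContrStatement + OutLeaf` (`NCSpec.lean`), with
* NC-abs = `H232.normContr : H220.NormContrStatement` (helper232),
* OUT    = `outLeaf : OutLeaf` (`NCLevel.lean`).

So the only open input is `InLeaf` (chart → valuation, `NCSpec.lean`):
* `ncFor_of_in : InLeaf → … → NCFor p M' A`   (all odd `p ∤ M'`, `2 ∣ M'` if `p = 3`);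
* `nc5_of_in   : InLeaf → (the body of `H943.Final2.NC5Statement`)`  (`p ≥ 5`);
* `ncx_of_in`  : the combined leaf `S2.NCXStatement` from DICT and IN.
-/

set_option autoImplicit false

noncomputable section

namespace Fermat.Agent.Ribet.H784

open ModularCurve
open Fermat.Agent.Ribet.H103.S2 Fermat.Agent.Ribet.H220

/-- **NC from IN** (ready levels: `p` odd, `p ∤ M'`, `2 ∣ M'` if `p = 3`). -/
theorem ncFor_of_in (hIn : InLeaf)
    (p M' : ℕ) [NeZero M'] [NeZero p] [NeZero (p * M')] (hp : p.Prime) (hp2 : p ≠ 2)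
    (hpM : ¬ p ∣ M') (h3 : p = 3 → 2 ∣ M') (A : ValuationSubring (AlgebraicClosure ℚ))
    (hA : A.LiesOverPrime p) : NCFor p M' A :=
  ncFor_of_leaves hIn Fermat.Agent.Ribet.H232.normContr outLeaf p M' hp hp2 hpM h3 A hA

/-- **NC for `p ≥ 5` from IN** (the body of `H943.Final2.NC5Statement`). -/
theorem nc5_of_in (hIn : InLeaf) :
    ∀ (p M' : ℕ) [NeZero M'] [NeZero p] [NeZero (p * M')], p.Prime → 5 ≤ p → ¬ p ∣ M' →
      ∀ A : ValuationSubring (AlgebraicClosure ℚ), A.LiesOverPrime p → NCFor p M' A :=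
  fun p M' _ _ _ hp h5 hpM A hA =>
    ncFor_of_in hIn p M' hp (by omega) hpM (by omega) A hA

/-- **NCX from DICT and IN.** -/
theorem ncx_of_in (hIn : InLeaf)
    (p M' : ℕ) [NeZero M'] [NeZero p] [NeZero (p * M')] (hp : p.Prime) (hp2 : p ≠ 2)
    (hpM : ¬ p ∣ M') (h3 : p = 3 → 2 ∣ M') (A : ValuationSubring (AlgebraicClosure ℚ))
    (hA : A.LiesOverPrime p) (𝒮 : AddSubgroup (JZero (p * M')))
    (hD : DictFor p M' A 𝒮) : NCXStatement p M' A 𝒮 :=
  ncx_of p M' A 𝒮 hD (ncFor_of_in hIn p M' hp hp2 hpM h3 A hA)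

end Fermat.Agent.Ribet.H784

end
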