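import Fermat.Agent.Ribet.H784.NCOut
import Fermat.Agent.Ribet.H862.StdModel
import Fermat.Agent.Ribet.H459.CutLoc
import Fermat.Agent.Ribet.H575.Merge
import Fermat.Agent.Ribet.H883.DKCore
import Fermat.Agent.Ribet.H232.NCInst
import Fermat.Agent.Ribet.H247.DictPure
import Fermat.Agent.Ribet.H216.GaussDescent
import Fermat.Agent.A2.T1.H669.T1

/-!
# RIBET, wall at `p`, S2 leaf NC — the adapter OUT, CLOSED (helper784)

* `levelDeepPure : LevelDeepPureLeaf` (the frozen `Prop` of `NCOut.lean`), PROVED from main: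
  the standard model at `q = p` (`S35.G.H862.exists_chart_cutBy`, `Mod.H732.s4`,
  `Mod.H751.stau_of_s1`, `Mod.H216.goodRedHyp_of_dvr`), MERGE (`H575.merge`), CUTLOC
  (`H459.cutLoc`), `p² ∈ (ζ - 1) ^ p w R_E` (`H883.DK.sq_natCast_eq_mul`) and purity from
  splitness (`H247.pureAt_both_of_isSplit247`).  The proof follows helper220's
  `H220.levelReady_of_parts` up to the point where ALG-p is applied.
* `outLeaf : OutLeaf`  (`out_of_level levelDeepPure H216.gaussDescent`).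
-/

set_option autoImplicit false
set_option linter.style.haveILetI false
set_option linter.unusedSectionVars false
set_option linter.unusedVariables false
set_option synthInstance.maxHeartbeats 400000
set_option maxHeartbeats 1600000

noncomputable section

namespace Fermat.Agent.Ribet.H784

open AlgebraicCurve ModularCurve
open Fermat.Agent.A2 Fermat.Agent.A2.Alg
open Fermat.Agent.Ribet.H103.AlgP Fermat.Agent.Ribet.H103.S2 Fermat.Agent.Ribet.H220

/-! ## Generic lemmas -/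

section Generic

variable {R F : Type*} [CommRing R] [Field F] [Algebra R F]

/-- `u ∈ 1 + s V` and `V ⊆ B_n` give `u ∈ 1 + s B_n`. -/
theorem deepAt_of_oneMod_h784 (B : Subalgebra R F) (n : Ideal B) (V : ValuationSubring F)
    (hV : ∀ f ∈ V, ∃ a b : B, b ∉ n ∧ f * (b : F) = (a : F)) (s : R) (u : F)
    (h : OneMod V (algebraMap R F s) u) : DeepAt B n s u := by
  obtain ⟨z, hz, rfl⟩ := h
  obtain ⟨a', b, hb, hab⟩ := hV z hz
  refine ⟨b + algebraMap R B s * a', b, hb, ?_, ?_⟩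
  · rw [add_sub_cancel_left]
    exact Ideal.mul_mem_right _ _ (Ideal.subset_span rfl)
  · push_cast
    rw [← hab]
    ring

/-- Depth `π` with `w ∣ π` on a component gives a constant residue (`= 1`) there. -/
theorem constAt_of_deepAt_h784 (B : Subalgebra R F) (𝔮 : Ideal B) (w π : R)
    (hw : algebraMap R B w ∈ 𝔮) (hπ : ∃ e : R, π = e * w) (u : F)
    (h : DeepAt B 𝔮 π u) : ConstAt B 𝔮 u := by
  obtain ⟨a, b, hb, hab, hu⟩ := h
  refine ⟨1, isUnit_one, a, b, hb, ?_, hu⟩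
  rw [map_one, one_mul]
  obtain ⟨e, rfl⟩ := hπ
  have hle : Ideal.span {algebraMap R B (e * w)} ≤ 𝔮 := by
    rw [Ideal.span_le, Set.singleton_subset_iff, map_mul]
    exact Ideal.mul_mem_left _ _ hw
  exact hle hab

variable {E : Type*} [Field E] [Algebra E F]

/-- `p ∣ div (h ^ m · u)` implies `p ∣ div u`. -/
theorem divisibleDiv_of_pow_mul_h784 (m : ℕ) (f h u : F) (hh : h ≠ 0) (hf : f = h ^ m * u)
    (hd : DivisibleDiv E m f) : DivisibleDiv E m u := by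
  intro V hV hEV
  obtain ⟨h', u', hh', hu', hu'inv, hfu⟩ := hd V hV hEV
  refine ⟨h' * h⁻¹, u', mul_ne_zero hh' (inv_ne_zero hh), hu', hu'inv, ?_⟩
  have h1 : u = f * (h ^ m)⁻¹ := by
    rw [hf, mul_comm (h ^ m) u, mul_assoc, mul_inv_cancel₀ (pow_ne_zero m hh), mul_one]
  rw [h1, hfu, mul_pow, inv_pow]
  ring

/-- a root of unity lies in every valuation subring. -/
theorem mem_of_pow_eq_one_h784 (A : ValuationSubring F) {x : F} {n : ℕ} (hn : n ≠ 0)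
    (hx : x ^ n = 1) : x ∈ A := by
  rcases A.mem_or_inv_mem x with h | h
  · exact h
  · have h1 : x = x⁻¹ ^ (n - 1) := by
      have hx0 : x ≠ 0 := by
        rintro rfl
        rw [zero_pow hn] at hx
        exact zero_ne_one hx
      have h2 : x ^ n = x ^ (n - 1) * x := by
        rw [← pow_succ]
        congr 1
        omega
      rw [h2] at hx
      rw [inv_pow]
      exact (eq_inv_of_mul_eq_one_right hx)
    rw [h1]
    exact A.pow_mem h _

end Generic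

/-! ## LEVEL-DP -/

set_option maxHeartbeats 6400000 in
/-- **LEVEL-DP, core**: the statement on the charts of the coordinates `x`, `x⁻¹`. -/
theorem levelCore_h784 (A : ValuationSubring Qb) (E : IntermediateField ℚ Qb) (M p : ℕ)
    [NeZero M] [NeZero p] [NeZero (M * p)] (hp : p.Prime) (hp2 : p ≠ 2) (hpM : ¬ p ∣ M)
    (h3 : p = 3 → 2 ∣ M) (hA : A.LiesOverPrime p) (hE : GoodField A E) (ζ : E)
    (hζ : IsPrimitiveRoot ζ p)
    (V : ValuationSubring (FE E (M * p))) (W : FE E (M * p) ≃ₐ[E] FE E (M * p))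
    (hV : Mod.IsVinf A E (M * p) V) (hW : Mod.IsFricke E (M * p) W)
    (y : FE E (M * p)) (hy0 : y ≠ 0) (hdd : DivisibleDiv E p y)
    (hd1 : Deep V p (algebraMap E (FE E (M * p)) ((p : E) ^ 2)) y)
    (hd2 : Deep (V.comap (W : FE E (M * p) →+* FE E (M * p))) p
      (algebraMap E (FE E (M * p)) ((p : E) ^ 2)) y) :
    ∃ (ζ' w : RE A E) (G : FE E (M * p))
      (cf : SSChart w (Mod.chartAlg A E (M * p) (Mod.xE E M p)))
      (ci : SSChart w (Mod.chartAlg A E (M * p) (Mod.xE E M p)⁻¹)),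
      G ≠ 0 ∧ IsPrimitiveRoot ζ' p ∧ Irreducible w ∧
      IsDeepSplit (Mod.chartAlg A E (M * p) (Mod.xE E M p)) cf ((ζ' - 1) ^ p * w)
        (y * (G ^ p)⁻¹) ∧
      IsDeepSplit (Mod.chartAlg A E (M * p) (Mod.xE E M p)⁻¹) ci ((ζ' - 1) ^ p * w)
        (y * (G ^ p)⁻¹) ∧
      (∀ n : Ideal (Mod.chartAlg A E (M * p) (Mod.xE E M p)), n.IsMaximal →
        algebraMap (RE A E) (Mod.chartAlg A E (M * p) (Mod.xE E M p)) w ∈ n →
          PureAt (Mod.chartAlg A E (M * p) (Mod.xE E M p)) cf p (y * (G ^ p)⁻¹) n) ∧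
      (∀ n : Ideal (Mod.chartAlg A E (M * p) (Mod.xE E M p)⁻¹), n.IsMaximal →
        algebraMap (RE A E) (Mod.chartAlg A E (M * p) (Mod.xE E M p)⁻¹) w ∈ n →
          PureAt (Mod.chartAlg A E (M * p) (Mod.xE E M p)⁻¹) ci p (y * (G ^ p)⁻¹) n) := by
  haveI : IsDiscreteValuationRing ↥(RE A E) := hE.dvr
  obtain ⟨w, hw⟩ := IsDiscreteValuationRing.exists_irreducible ↥(RE A E)
  have hM0 : M ≠ 0 := NeZero.ne M
  have hNne : M * p ≠ 0 := mul_ne_zero hM0 hp.ne_zero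
  have hS : Mod.Setting A E M p w := ⟨hp, hpM, hM0, hA, hE.dvr, hw⟩
  obtain ⟨VM, hVM⟩ := Mod.H553.vinfExists A E M hM0 hE.dvr
  have hgood : Mod.GoodRedHyp A E M :=
    Mod.H216.goodRedHyp_of_dvr A E M hp hpM h3 (fun h => absurd h hp2) hA hE.dvr
  obtain ⟨hx, hfr, hconst⟩ := Mod.H31.deg E M p hp hpM
  have hpos : 0 < Module.finrank
      (IntermediateField.adjoin E ({Mod.xE E M p} : Set (FE E (M * p)))) (FE E (M * p)) := by
    rw [hfr]
    have h1 := Mod.dedekindPsi_pos_of_ne_zero M hM0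
    positivity
  have hfin : FiniteDimensional
      (IntermediateField.adjoin E ({Mod.xE E M p} : Set (FE E (M * p)))) (FE E (M * p)) :=
    Module.finite_of_finrank_pos hpos
  have hg₀ := hgood w VM hw hVM
  -- the two charts with their cuts
  obtain ⟨cf, hcf⟩ := Fermat.Agent.S35.G.H862.exists_chart_cutBy hS
    (Fermat.Agent.S35.G.H862.s1 A E M p w) (Mod.H142.s2 A E M p w)
    (Fermat.Agent.S35.G.H862.s3 A E M p w) VM V W hVM hV hW _ _ (Or.inl ⟨rfl, rfl⟩) hg₀.1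
  obtain ⟨ci, hci⟩ := Fermat.Agent.S35.G.H862.exists_chart_cutBy hS
    (Fermat.Agent.S35.G.H862.s1 A E M p w) (Mod.H142.s2 A E M p w)
    (Fermat.Agent.S35.G.H862.s3 A E M p w) VM V W hVM hV hW _ _ (Or.inr ⟨rfl, rfl⟩) hg₀.2
  obtain ⟨hLf₁, hLf₂⟩ := Fermat.Agent.Ribet.H459.cutLoc A E M p w hS V W hV hW _ (Or.inl rfl)
    cf.p₁ cf.p₂ (fun b => hcf.cut₁ b) (fun b => hcf.cut₂ b)
  obtain ⟨hLi₁, hLi₂⟩ := Fermat.Agent.Ribet.H459.cutLoc A E M p w hS V W hV hW _ (Or.inr rfl)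
    ci.p₁ ci.p₂ (fun b => hci.cut₁ b) (fun b => hci.cut₂ b)
  -- the root of unity in `R`
  have hζP : (algebraMap E Qb ζ) ∈ A :=
    mem_of_pow_eq_one_h784 A hp.ne_zero (by rw [← map_pow, hζ.pow_eq_one, map_one])
  set ζR : ↥(RE A E) := ⟨ζ, hζP⟩ with hζRdef
  have hζR : IsPrimitiveRoot ζR p :=
    IsPrimitiveRoot.of_map_of_injective (f := (RE A E).subtype) hζ Subtype.val_injective
  have hpR : ((p : ℕ) : ↥(RE A E)) ∈ IsLocalRing.maximalIdeal ↥(RE A E) :=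
    T1.H669.natCast_mem_maximalIdeal_RE E hA
  -- depth `p²` is depth `λ^p w`
  obtain ⟨a, ha⟩ := Fermat.Agent.Ribet.H883.DK.sq_natCast_eq_mul w hw p hp hp2 hpR ζR hζR
  set s : ↥(RE A E) := (ζR - 1) ^ p * w with hs
  have hr : algebraMap E (FE E (M * p)) ((p : E) ^ 2) =
      algebraMap ↥(RE A E) (FE E (M * p)) s * Mod.cE A E (M * p) a := by
    have h1 : ((p : E) ^ 2) = ((s * a : ↥(RE A E)) : E) := by
      have := congrArg (fun z : ↥(RE A E) => (z : E)) ha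
      simpa [hs] using this
    rw [h1]
    show _ = algebraMap E (FE E (M * p)) (s : E) * algebraMap E (FE E (M * p)) (a : E)
    rw [← map_mul]
    rfl
  have hWc : ∀ r : ↥(RE A E), W (Mod.cE A E (M * p) r) = Mod.cE A E (M * p) r :=
    fun r => W.commutes (r : E)
  have hcV : ∀ r : ↥(RE A E), Mod.cE A E (M * p) r ∈ V := fun r => Mod.H378.cE_mem hV r
  have hcV₀ : ∀ r : ↥(RE A E),
      Mod.cE A E (M * p) r ∈ V.comap (W : FE E (M * p) →+* FE E (M * p)) := fun r => by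
    show W (Mod.cE A E (M * p) r) ∈ V
    rw [hWc]
    exact hcV r
  have hd1' := hd1.mono (hcV a) hr
  have hd2' := hd2.mono (hcV₀ a) hr
  -- merge
  have hU₁ : H48.IsUnif V (Mod.cE A E (M * p) w) := H232.isUnif_vinf hS hNne hV
  have hU₂ : H48.IsUnif (V.comap (W : FE E (M * p) →+* FE E (M * p)))
      (Mod.cE A E (M * p) w) := H232.isUnif_comap hU₁ _ (hWc w)
  have hne : V ≠ V.comap (W : FE E (M * p) →+* FE E (M * p)) :=
    fun h => Mod.H553.vzeroNe A E M p w hS V W hV hW h.symm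
  have harch₁ : ∀ x : FE E (M * p), ∃ n : ℕ, Mod.cE A E (M * p) w ^ n * x ∈ V :=
    fun x => H232.arch_vinf hS hV x
  have harch₂ : ∀ x : FE E (M * p), ∃ n : ℕ,
      Mod.cE A E (M * p) w ^ n * x ∈ V.comap (W : FE E (M * p) →+* FE E (M * p)) := by
    intro x
    obtain ⟨n, hn⟩ := H232.arch_vinf hS hV (W x)
    refine ⟨n, ?_⟩
    show W (Mod.cE A E (M * p) w ^ n * x) ∈ V
    rw [map_mul, map_pow, hWc]
    exact hn
  have hw0 : Mod.cE A E (M * p) w ≠ 0 := Mod.H378.cE_ne_zero hS _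
  have hsr : algebraMap ↥(RE A E) (FE E (M * p)) s =
      Mod.cE A E (M * p) ((ζR - 1) ^ p) * Mod.cE A E (M * p) w := by
    show algebraMap E (FE E (M * p)) (s : E) = algebraMap E (FE E (M * p)) _ *
      algebraMap E (FE E (M * p)) _
    rw [← map_mul]
    rfl
  have hs0 : algebraMap ↥(RE A E) (FE E (M * p)) s ≠ 0 := by
    rw [hsr]
    refine mul_ne_zero ?_ hw0
    show algebraMap E (FE E (M * p)) _ ≠ 0
    rw [Ne, map_eq_zero]
    intro h0
    have h1 : (ζR - 1) ^ p = 0 := Subtype.ext h0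
    have h2 : ζR - 1 = 0 := pow_eq_zero_iff hp.ne_zero |>.1 h1
    exact hζR.ne_one hp.one_lt (sub_eq_zero.mp h2)
  have hsπ : algebraMap ↥(RE A E) (FE E (M * p)) s * (Mod.cE A E (M * p) w)⁻¹ =
      Mod.cE A E (M * p) ((ζR - 1) ^ p) := by
    rw [hsr, mul_assoc, mul_inv_cancel₀ hw0, mul_one]
  obtain ⟨h, u, hh0, hyu, hu₁, hu₂⟩ := Fermat.Agent.Ribet.H575.merge V
    (V.comap (W : FE E (M * p) →+* FE E (M * p)))
    (Mod.cE A E (M * p) w) hU₁ hU₂ hne harch₁ harch₂ p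
    (algebraMap ↥(RE A E) (FE E (M * p)) s) y hs0
    (by rw [hsπ]; exact hcV _) (by rw [hsπ]; exact hcV₀ _) hd1' hd2'
  obtain rfl : u = y * (h ^ p)⁻¹ := by
    rw [hyu, mul_comm (h ^ p) u, mul_assoc, mul_inv_cancel₀ (pow_ne_zero p hh0), mul_one]
  -- `u` is deep on both charts
  have hu0 : y * (h ^ p)⁻¹ ≠ 0 := mul_ne_zero hy0 (inv_ne_zero (pow_ne_zero p hh0))
  have hDf : IsDeepSplit (Mod.chartAlg A E (M * p) (Mod.xE E M p)) cf s (y * (h ^ p)⁻¹) :=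
    ⟨deepAt_of_oneMod_h784 _ cf.p₁ V hLf₁ s _ hu₁, deepAt_of_oneMod_h784 _ cf.p₂ _ hLf₂ s _ hu₂⟩
  have hDi : IsDeepSplit (Mod.chartAlg A E (M * p) (Mod.xE E M p)⁻¹) ci s (y * (h ^ p)⁻¹) :=
    ⟨deepAt_of_oneMod_h784 _ ci.p₁ V hLi₁ s _ hu₁, deepAt_of_oneMod_h784 _ ci.p₂ _ hLi₂ s _ hu₂⟩
  have hddu : DivisibleDiv E p (y * (h ^ p)⁻¹) :=
    divisibleDiv_of_pow_mul_h784 p y h _ hh0 hyu hdd
  -- splitness
  have hwf : algebraMap ↥(RE A E) (Mod.chartAlg A E (M * p) (Mod.xE E M p)) w ∈ cf.p₁ ⊓ cf.p₂ := by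
    rw [cf.inf_eq]
    exact Ideal.subset_span rfl
  have hwi : algebraMap ↥(RE A E) (Mod.chartAlg A E (M * p) (Mod.xE E M p)⁻¹) w ∈
      ci.p₁ ⊓ ci.p₂ := by
    rw [ci.inf_eq]
    exact Ideal.subset_span rfl
  have hsw : ∃ e : ↥(RE A E), s = e * w := ⟨(ζR - 1) ^ p, rfl⟩
  have hsf : IsSplit (Mod.chartAlg A E (M * p) (Mod.xE E M p)) cf (y * (h ^ p)⁻¹) :=
    ⟨constAt_of_deepAt_h784 _ cf.p₁ w s hwf.1 hsw _ hDf.1,
      constAt_of_deepAt_h784 _ cf.p₂ w s hwf.2 hsw _ hDf.2⟩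
  have hsi : IsSplit (Mod.chartAlg A E (M * p) (Mod.xE E M p)⁻¹) ci (y * (h ^ p)⁻¹) :=
    ⟨constAt_of_deepAt_h784 _ ci.p₁ w s hwi.1 hsw _ hDi.1,
      constAt_of_deepAt_h784 _ ci.p₂ w s hwi.2 hsw _ hDi.2⟩
  -- purity
  obtain ⟨hPf, hPi⟩ := Fermat.Agent.Ribet.H247.pureAt_both_of_isSplit247
    (R := ↥(RE A E)) (E := E) (F := ↥(FE E (M * p))) p hp.pos w hw (Mod.xE E M p) hx hfin hconst
    (Mod.chartAlg A E (M * p) (Mod.xE E M p)) (Mod.chartAlg A E (M * p) (Mod.xE E M p)⁻¹)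
    (fun _ => Iff.rfl) (fun _ => Iff.rfl) cf ci (y * (h ^ p)⁻¹) hu0 hddu hsf hsi
  exact ⟨ζR, w, h, cf, ci, hh0, hζR, hw, hDf, hDi, hPf, hPi⟩

/-- The standard model at `q = p` over a good level, on the charts of `x`, `x⁻¹`. -/
theorem exists_stdD_h784 (A : ValuationSubring Qb) (E : IntermediateField ℚ Qb) (M p : ℕ)
    [NeZero M] [NeZero p] [NeZero (M * p)] (hp : p.Prime) (hp2 : p ≠ 2) (hpM : ¬ p ∣ M)
    (h3 : p = 3 → 2 ∣ M) (hA : A.LiesOverPrime p) (hE : GoodField A E) :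
    ∃ D : ModSSData A E (M * p), D.Bf = Mod.chartAlg A E (M * p) (Mod.xE E M p) ∧
      D.Bi = Mod.chartAlg A E (M * p) (Mod.xE E M p)⁻¹ := by
  obtain ⟨D, V, W, hDx, -, -, -⟩ := Fermat.Agent.Ribet.H862.stdModel_mul A E M p hp hpM h3
    (fun h => absurd h hp2) hA hE
  refine ⟨D, ?_, ?_⟩
  · ext f
    rw [D.hBf f, hDx]
    exact Iff.rfl
  · ext f
    rw [D.hBi f, hDx]
    exact Iff.rfl

/-- **LEVEL-DP** (`LevelDeepPureLeaf`, VERBATIM). -/
theorem levelDeepPure : LevelDeepPureLeaf := by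
  intro A E M p N _ _ _ hN hp hp2 hpM h3 hA hE ζ hζ V W hV hW y hy0 hdd hd1 hd2
  subst hN
  obtain ⟨ζ', w, G, cf, ci, hG, hζ', hw, hDf, hDi, hPf, hPi⟩ :=
    levelCore_h784 A E M p hp hp2 hpM h3 hA hE ζ hζ V W hV hW y hy0 hdd hd1 hd2
  obtain ⟨D, hBf, hBi⟩ := exists_stdD_h784 A E M p hp hp2 hpM h3 hA hE
  obtain ⟨x, hx, hfin, hconst, Bf, Bi, hBf', hBi', cf', ci', sf, si, hτx, hτf, hτi⟩ := D
  dsimp only at hBf hBi
  subst hBf hBi
  exact ⟨⟨x, hx, hfin, hconst, _, _, hBf', hBi', cf', ci', sf, si, hτx, hτf, hτi⟩,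
    ζ', w, G, cf, ci, hG, hζ', hw, hDf, hDi, hPf, hPi⟩

/-- **NC leaf OUT**, CLOSED. -/
theorem outLeaf : OutLeaf :=
  out_of_level levelDeepPure Fermat.Agent.Ribet.H216.gaussDescent

end Fermat.Agent.Ribet.H784

end
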