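import Fermat.Agent.Ribet.H784.NCSpec
import Fermat.Agent.Ribet.H220.S2Level
import Fermat.Agent.A2.IF.H429.IF
import Fermat.Agent.A2.Mod.H553.Fricke
import Fermat.Agent.A2.Mod.H553.Vinf
import Fermat.Agent.A2.T1.H669.T1Core
import Fermat.Agent.Lib.RR.H864.FF1Modular

/-!
# RIBET, wall at `p`, S2 leaf NC — the adapter OUT: sub-interface and descent glue (helper784)

`OutLeaf` (`NCSpec.lean`): a class with a Kummer function `f ∈ (F̄ˣ)^p (1 + p² V∞)`,
`f ∈ (F̄ˣ)^p (1 + p² V₀)` is deeply split and pure (`S2.DeepPureClass`).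

* `LevelDeepPureLeaf` (frozen `Prop`): the statement at ONE good level `E ∋ ζ_p`
  (hypotheses VERBATIM those of `H220.LevelStatement`; conclusion = the chart data of
  `S2.DeepPureClass` for `y / G ^ p`, i.e. what is fed to `AlgP`).
* `isKummerFn_div_pow` (PROVED): Kummer functions modulo `p`-th powers.
* `out_of_level` (PROVED): `LevelDeepPureLeaf → H220.GaussDescentStatement → OutLeaf`
  (descent to a good level as in `A2/T1/H669`).
-/

set_option autoImplicit false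
set_option linter.style.haveILetI false
set_option linter.unusedSectionVars false
set_option synthInstance.maxHeartbeats 400000
set_option maxHeartbeats 1600000

noncomputable section

namespace Fermat.Agent.Ribet.H784

open AlgebraicCurve ModularCurve
open Fermat.Agent.A2 Fermat.Agent.A2.Alg
open Fermat.Agent.Ribet.H103.AlgP Fermat.Agent.Ribet.H103.S2 Fermat.Agent.Ribet.H220

/-- **Leaf LEVEL-DP** (chart part of LEVEL, before `AlgP`).  `E` a good level for `A` (over an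
odd prime `p ∤ M`, `2 ∣ M` if `p = 3`) containing a primitive `p`-th root of unity; `N = M * p`;
`V = V∞`, `W` the Fricke involution of `F_{N,E}`.  If `p ∣ div y` and `y` is a `p`-th power
times an element of `1 + p² V` at `V = V∞` and at `V = V₀ = V∞ ∘ W`, then on a semistable model
`D` over `R_E` some `y / G ^ p` is deeply split (`≡ 1 mod (ζ - 1) ^ p w` on both components of
both charts) and pure at every closed point of the special fibre of both charts. -/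
def LevelDeepPureLeaf : Prop :=
  ∀ (A : ValuationSubring Qb) (E : IntermediateField ℚ Qb) (M p N : ℕ) [NeZero M] [NeZero p]
    [NeZero N], M * p = N → p.Prime → p ≠ 2 → ¬ p ∣ M → (p = 3 → 2 ∣ M) → A.LiesOverPrime p →
    GoodField A E → ∀ ζ : E, IsPrimitiveRoot ζ p →
    ∀ (V : ValuationSubring (FE E N)) (W : FE E N ≃ₐ[E] FE E N),
      Mod.IsVinf A E N V → Mod.IsFricke E N W →
    ∀ y : FE E N, y ≠ 0 → DivisibleDiv E p y →
      Deep V p (algebraMap E (FE E N) ((p : E) ^ 2)) y →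
      Deep (V.comap (W : FE E N →+* FE E N)) p (algebraMap E (FE E N) ((p : E) ^ 2)) y →
      ∃ (D : ModSSData A E N) (ζ' w : RE A E) (G : FE E N) (cf : SSChart w D.Bf)
        (ci : SSChart w D.Bi),
        G ≠ 0 ∧ IsPrimitiveRoot ζ' p ∧ Irreducible w ∧
        IsDeepSplit D.Bf cf ((ζ' - 1) ^ p * w) (y * (G ^ p)⁻¹) ∧
        IsDeepSplit D.Bi ci ((ζ' - 1) ^ p * w) (y * (G ^ p)⁻¹) ∧
        (∀ n : Ideal D.Bf, n.IsMaximal → algebraMap (RE A E) D.Bf w ∈ n →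
          PureAt D.Bf cf p (y * (G ^ p)⁻¹) n) ∧
        (∀ n : Ideal D.Bi, n.IsMaximal → algebraMap (RE A E) D.Bi w ∈ n →
          PureAt D.Bi ci p (y * (G ^ p)⁻¹) n)

/-! ## Kummer functions modulo `p`-th powers -/

/-- A Kummer function of `x` divided by a `p`-th power is a Kummer function of `x`. -/
theorem isKummerFn_div_pow (N p : ℕ) [NeZero N] (x : JZero N)
    (f G : modularFunctionFieldBar N) (hG : G ≠ 0) (hf : IsKummerFn N p x f) :
    IsKummerFn N p x (f * (G ^ p)⁻¹) := by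
  obtain ⟨hf0, D, hDx, hord⟩ := hf
  have hpd := Fermat.Agent.Lib.RR.H864.hasPrincipalDivisors_modularFunctionFieldBar N
  obtain ⟨DG, hDG, hdeg⟩ := hpd.exists_divisor G hG
  have hGp : (G ^ p)⁻¹ ≠ 0 := inv_ne_zero (pow_ne_zero _ hG)
  refine ⟨mul_ne_zero hf0 hGp, D - ⟨DG, hdeg⟩, ?_, fun v => ?_⟩
  · rw [← hDx]
    show Pic0.mk (D - ⟨DG, hdeg⟩) = Pic0.mk D
    have h0 : Pic0.mk (⟨DG, hdeg⟩ : Divisor.degZero (K := AlgebraicClosure ℚ)
        (F := modularFunctionFieldBar N)) = 0 := by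
      refine (QuotientAddGroup.eq_zero_iff _).2 ?_
      rw [AddSubgroup.mem_addSubgroupOf]
      exact ⟨G, hG, hDG⟩
    have h1 : Pic0.mk (D - ⟨DG, hdeg⟩) = Pic0.mk D - Pic0.mk ⟨DG, hdeg⟩ := rfl
    rw [h1, h0, sub_zero]
  · rw [v.ord_mul hf0 hGp, v.ord_inv, Fermat.Agent.A2.H129.ord_pow, hord v]
    simp only [AddSubgroupClass.coe_sub, Finsupp.sub_apply]
    rw [hDG v]
    ring

/-! ## The descent glue -/

/-- **OUT from LEVEL-DP and Gauss descent.** -/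
theorem out_of_level (hL : LevelDeepPureLeaf) (hGD : GaussDescentStatement) : OutLeaf := by
  intro p M' _ _ _ hp hp2 hpM h3 A hA x f hfK hI hZ
  obtain ⟨hf0, Dv, hDx, hord⟩ := id hfK
  obtain ⟨g₁, u₁, hg₁, hfu₁, z₁, hz₁, hu₁⟩ := hI
  obtain ⟨g₂, u₂, hg₂, hfu₂, z₂, hz₂, hu₂⟩ := hZ
  set F₀ := modularFunctionFieldFull (p * M') with hF₀
  -- a primitive `p`-th root of unity
  haveI : NeZero (p : Qb) := ⟨by exact_mod_cast hp.ne_zero⟩
  obtain ⟨ζ, hζ⟩ : ∃ ζ : Qb, IsPrimitiveRoot ζ p :=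
    HasEnoughRootsOfUnity.exists_primitiveRoot Qb p
  -- descent of the data to a good level
  obtain ⟨Sf, hSf⟩ := T1.H669.exists_finset_descent F₀ f
  obtain ⟨Sg₁, hSg₁⟩ := T1.H669.exists_finset_descent F₀ g₁
  obtain ⟨Sz₁, hSz₁⟩ := T1.H669.exists_finset_descent F₀ z₁
  obtain ⟨Sg₂, hSg₂⟩ := T1.H669.exists_finset_descent F₀ g₂
  obtain ⟨Sz₂, hSz₂⟩ := T1.H669.exists_finset_descent F₀ z₂
  classical
  obtain ⟨E, hSE, hE⟩ := Fermat.Agent.A2.IF.H429.ifStatement p hp A hA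
    (Sf ∪ Sg₁ ∪ Sz₁ ∪ Sg₂ ∪ Sz₂ ∪ {ζ})
  obtain ⟨y, hy⟩ := hSf E (fun s hs => hSE s (by simp [hs]))
  obtain ⟨γ₁, hγ₁⟩ := hSg₁ E (fun s hs => hSE s (by simp [hs]))
  obtain ⟨ξ₁, hξ₁⟩ := hSz₁ E (fun s hs => hSE s (by simp [hs]))
  obtain ⟨γ₂, hγ₂⟩ := hSg₂ E (fun s hs => hSE s (by simp [hs]))
  obtain ⟨ξ₂, hξ₂⟩ := hSz₂ E (fun s hs => hSE s (by simp [hs]))
  have hζE : ζ ∈ E := hSE ζ (by simp)
  have hζ' : IsPrimitiveRoot (⟨ζ, hζE⟩ : E) p :=
    IsPrimitiveRoot.of_map_of_injective (f := algebraMap E Qb) (M := E) (ζ := ⟨ζ, hζE⟩) hζ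
      (algebraMap E Qb).injective
  -- the level objects
  haveI : IsDiscreteValuationRing ↥(RE A E) := hE.dvr
  have hV := Mod.H553.isVinf_VinfE A E (p * M')
  have hW := Mod.H553.isFricke_wE E (p * M')
  set V := Mod.H553.VinfE A E (p * M') with hVdef
  set W := Mod.H553.wE E (p * M') with hWdef
  have hι : ∀ t : FE E (p * M'), T1.H849.iota E F₀ t = T1.H669.iota E F₀ t :=
    fun t => Subtype.ext rfl
  have hy0 : y ≠ 0 := by
    rintro rfl
    rw [map_zero] at hy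
    exact hf0 hy.symm
  have hγ₁0 : γ₁ ≠ 0 := by
    rintro rfl
    rw [map_zero] at hγ₁
    exact hg₁ hγ₁.symm
  have hγ₂0 : γ₂ ≠ 0 := by
    rintro rfl
    rw [map_zero] at hγ₂
    exact hg₂ hγ₂.symm
  -- Gauss descent
  have hξ₁V : ξ₁ ∈ V := hGD A E (p * M') hp.ne_zero hA hE.dvr V hV ξ₁ (by rw [hξ₁]; exact hz₁)
  have hξ₂V : W ξ₂ ∈ V := by
    refine hGD A E (p * M') hp.ne_zero hA hE.dvr V hV (W ξ₂) ?_
    rw [← hι, Mod.H553.iota_wE, hι, hξ₂]
    exact hz₂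
  -- the constant `p²`
  have hc : T1.H669.iota E F₀ (algebraMap E (FE E (p * M')) ((p : E) ^ 2)) =
      cF (p * M') ((p : Qb) ^ 2) := by
    rw [T1.H669.iota_algebraMap]
    simp [cF]
  -- the depth statements at level `E`
  have hd₁ : Deep V p (algebraMap E (FE E (p * M')) ((p : E) ^ 2)) y := by
    refine ⟨γ₁, 1 + algebraMap E (FE E (p * M')) ((p : E) ^ 2) * ξ₁, hγ₁0, ?_, ξ₁, hξ₁V, rfl⟩
    apply T1.H669.iota_injective E F₀
    rw [hy, map_mul, map_pow, map_add, map_one, map_mul, hc, hγ₁, hξ₁, hfu₁, hu₁]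
  have hd₂ : Deep (V.comap (W : FE E (p * M') →+* FE E (p * M'))) p
      (algebraMap E (FE E (p * M')) ((p : E) ^ 2)) y := by
    refine ⟨γ₂, 1 + algebraMap E (FE E (p * M')) ((p : E) ^ 2) * ξ₂, hγ₂0, ?_, ξ₂, hξ₂V, rfl⟩
    apply T1.H669.iota_injective E F₀
    rw [hy, map_mul, map_pow, map_add, map_one, map_mul, hc, hγ₂, hξ₂, hfu₂, hu₂]
  have hdiv : DivisibleDiv E p y :=
    T1.H669.divisibleDiv_of_ord E F₀ p y hy0 (fun v => ⟨_, by rw [hy]; exact hord v⟩)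
  -- the level statement
  obtain ⟨DE, ζ', w, G, cf, ci, hG, hζ'', hw, hdf, hdi, hpf, hpi⟩ :=
    hL A E M' p (p * M') (Nat.mul_comm M' p) hp hp2 hpM h3 hA hE ⟨ζ, hζE⟩ hζ' V W hV hW y hy0
      hdiv hd₁ hd₂
  refine ⟨E, hE, DE, ζ', w, y * (G ^ p)⁻¹, cf, ci, hζ'', hw, ?_, hdf, hdi, hpf, hpi⟩
  rw [map_mul, map_inv₀, map_pow, hy]
  exact isKummerFn_div_pow (p * M') p x f _ (T1.H669.iota_ne_zero E F₀ hG) hfK

end Fermat.Agent.Ribet.H784

end
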