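import Fermat.Agent.Ribet.H103.S2Spec
import Fermat.Agent.Ribet.H220.S2Glue

/-!
# RIBET, wall at `p`, target S2, leaf NC (norm contraction, I4) — interface and assembly
(NC sub-architect helper784; parent `Ribet/H103/S2Spec.lean`, helper103)

Target (frozen by helper103, official chain of row 38, ruling #9060):

    S2.NCFor p M' A : ∀ x, IsNewTors p M' x → SplitRedClass p M' A x → DeepPureClass p M' A x

## Route:  NC  =  IN ; NC-abs ; OUT
`N = p M'`, `V∞ = H708.Vinf N A`, `V₀ = H708.Vzero N A` (Gauss valuation rings of `F̄ = FF N`),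
depth vocabulary `H220.Deep`, `H220.DeepC`, `H220.cF` (helper220, `Ribet/H220/S2Spec.lean`).

* **IN**  (`InLeaf`, chart → valuation, level `E₀` → `ℚ̄`): a split-reduction class has a Kummer
  function `f` with `f ∈ ℚ̄ˣ (F̄ˣ)^p (1 + ϖ V)` for `V = V∞` and `V = V₀`, one nonunit `ϖ ≠ 0`.
* **NC-abs** = `H220.NormContrStatement` VERBATIM (helper220's frozen leaf; owners 232/400/279):
  both norms `p`-th powers (`H801.alphaL_mk_eq_zero_iff`, on main) + depth `ϖ` with constants
  ⟹ depth `ϖ ^ n` WITHOUT constants, all `n`.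
* **OUT** (`OutLeaf`, `ℚ̄` → good level `E ∋ ζ_p`, valuation → chart): a class with a Kummer
  function `f ∈ (F̄ˣ)^p (1 + p² V∞) ∩ (F̄ˣ)^p (1 + p² V₀)` is deeply split and pure.
  (`p² ∈ (ζ - 1)^p w R_E` for odd `p`; purity is RE-DERIVED at the final level from
  `IsSplit + DivisibleDiv`, `H247.pureAt_both_of_isSplit247`, so NO transport of purity between
  levels is needed.)

`ncFor_of_leaves : InLeaf → H220.NormContrStatement → OutLeaf → NCFor p M' A` is PROVED here
(odd `p`, `p ∤ M'`, `p = 3 → 2 ∣ M'`, `A` over `p`).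

## Sub-interface of OUT
`OutLeaf ⟸ LevelDeepPureLeaf + H220.GaussDescentStatement + KumLeaf` (descent glue:
`Ribet/H784/NCOut.lean`), where `LevelDeepPureLeaf` is the statement at ONE good level
(= the chart part of `H220.LevelStatement` / `H103` LevelDK, BEFORE `AlgP` is applied).
-/

set_option autoImplicit false
set_option linter.style.haveILetI false
set_option synthInstance.maxHeartbeats 400000
set_option maxHeartbeats 1600000

noncomputable section

namespace Fermat.Agent.Ribet.H784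

open AlgebraicCurve ModularCurve
open Fermat.Agent.S24 Fermat.Agent.A2.H708 Fermat.Agent.A2.H528
open Fermat.Agent.Ribet.H103.S2 Fermat.Agent.Ribet.H220

/-! ## The two adapters -/

/-- **Leaf IN** (chart → valuation).  A split-reduction class (helper103's `SplitRedClass`: good
level `E₀`, ANY model `D` with `D.x = stdCoord`, ANY charts `cf`, `ci`, `RedPowAt` on all four
components) has a Kummer function `f = ι y` which, at `V∞` and at `V₀`, is a constant times a
`p`-th power times an element of `1 + ϖ V`, for ONE nonzero nonunit `ϖ` of `A` dividing `p`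
(`ϖ` = the uniformiser `w` of `R_{E₀}`). -/
def InLeaf : Prop :=
  ∀ (p M' : ℕ) [NeZero M'] [NeZero p] [NeZero (p * M')] (hp : p.Prime), ¬ p ∣ M' →
    ∀ (A : ValuationSubring Kbar) (hA : A.LiesOverPrime p) (x : JZero (p * M')),
      SplitRedClass p M' A x →
      ∃ f : FF (p * M'), IsKummerFn (p * M') p x f ∧
        ∃ ϖ : Kbar, ϖ ≠ 0 ∧ ϖ ∈ A.nonunits ∧ (∃ e ∈ A, (p : Kbar) = ϖ * e) ∧
          DeepC Kbar (Vinf (p * M') A hp.ne_zero hA) p (cF (p * M') ϖ) f ∧
          DeepC Kbar (Vzero (p * M') A hp.ne_zero hA) p (cF (p * M') ϖ) f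

/-- **Leaf OUT** (valuation → chart).  A class `x` with a Kummer function which is a `p`-th
power times an element of `1 + p² V` at `V = V∞` and at `V = V₀` is deeply split and pure
(`p` odd, `p ∤ M'`, and `2 ∣ M'` if `p = 3`: the levels where MOD at `q = p` is available). -/
def OutLeaf : Prop :=
  ∀ (p M' : ℕ) [NeZero M'] [NeZero p] [NeZero (p * M')] (hp : p.Prime), p ≠ 2 → ¬ p ∣ M' →
    (p = 3 → 2 ∣ M') →
    ∀ (A : ValuationSubring Kbar) (hA : A.LiesOverPrime p) (x : JZero (p * M'))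
      (f : FF (p * M')), IsKummerFn (p * M') p x f →
      Deep (Vinf (p * M') A hp.ne_zero hA) p (cF (p * M') ((p : Kbar) ^ 2)) f →
      Deep (Vzero (p * M') A hp.ne_zero hA) p (cF (p * M') ((p : Kbar) ^ 2)) f →
      DeepPureClass p M' A x

/-! ## The assembly -/

/-- **NC from IN, NC-abs and OUT.** -/
theorem ncFor_of_leaves (hIn : InLeaf) (hNC : NormContrStatement) (hOut : OutLeaf)
    (p M' : ℕ) [NeZero M'] [NeZero p] [NeZero (p * M')] (hp : p.Prime) (hp2 : p ≠ 2)
    (hpM : ¬ p ∣ M') (h3 : p = 3 → 2 ∣ M') (A : ValuationSubring Kbar)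
    (hA : A.LiesOverPrime p) : NCFor p M' A := by
  intro x hnew hx
  obtain ⟨f, hfK, ϖ, hϖ0, hϖ, hpe, hI, hZ⟩ := hIn p M' hp hpM A hA x hx
  obtain ⟨hf0, D, hDx, hord⟩ := id hfK
  obtain ⟨-, hα, hβ⟩ := hnew
  rw [← hDx] at hα hβ
  -- both norms are `p`-th powers
  obtain ⟨g₁, -, h₁⟩ :=
    (Fermat.Agent.Ribet.H801.alphaL_mk_eq_zero_iff p M' hp.ne_zero D hf0
      (fun w => (hord w).symm)).1 hα
  obtain ⟨g₂, -, h₂⟩ :=
    (Fermat.Agent.Ribet.H801.betaL_mk_eq_zero_iff p M' hp.ne_zero D hf0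
      (fun w => (hord w).symm)).1 hβ
  -- norm contraction
  have hnc := hNC p M' hp hp2 hpM A hA f g₁ g₂ hf0 h₁ h₂ ϖ hϖ0 hϖ hpe hI hZ
  -- rank one: `ϖ ^ n ∈ p² A`
  have hpA : (p : Kbar) ∈ A.nonunits := hA
  have hp0 : (p : Kbar) ≠ 0 := by exact_mod_cast hp.ne_zero
  have hp20 : (p : Kbar) ^ 2 ≠ 0 := pow_ne_zero 2 hp0
  obtain ⟨n, hn⟩ := Fermat.Agent.A3.H675.harch A isAlgebraic_int_Kbar hp hpA ϖ
    ((p : Kbar) ^ 2) hϖ hp20
  have hpow : cF (p * M') ϖ ^ n =
      cF (p * M') ((p : Kbar) ^ 2) * cF (p * M') (ϖ ^ n / (p : Kbar) ^ 2) := by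
    rw [cF, cF, cF, ← map_pow, ← map_mul]
    congr 1
    field_simp
  obtain ⟨hnI, hnZ⟩ := hnc n
  have hI' := hnI.mono (cF_mem_Vinf (p * M') A hp.ne_zero hA hn) hpow
  have hZ' := hnZ.mono (cF_mem_Vzero (p * M') A hp.ne_zero hA hn) hpow
  exact hOut p M' hp hp2 hpM h3 A hA x f hfK hI' hZ'

/-- The combined leaf `S2.NCXStatement` (input of `S2.s2For_of`) from DICT and the NC leaves. -/
theorem ncx_of_leaves (hIn : InLeaf) (hNC : NormContrStatement) (hOut : OutLeaf)
    (p M' : ℕ) [NeZero M'] [NeZero p] [NeZero (p * M')] (hp : p.Prime) (hp2 : p ≠ 2)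
    (hpM : ¬ p ∣ M') (h3 : p = 3 → 2 ∣ M') (A : ValuationSubring Kbar)
    (hA : A.LiesOverPrime p) (𝒮 : AddSubgroup (JZero (p * M')))
    (hD : DictFor p M' A 𝒮) : NCXStatement p M' A 𝒮 :=
  ncx_of p M' A 𝒮 hD (ncFor_of_leaves hIn hNC hOut p M' hp hp2 hpM h3 A hA)

end Fermat.Agent.Ribet.H784

end
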